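import Mathlib

/-!
# S37 / RIM-core (helper577): counting in quotients of Dedekind algebras

`κ` a field, `D` a Dedekind domain and `κ`-algebra all of whose residue fields at maximal ideals
are `κ` (`ResidueTrivial`).  For a nonzero ideal `J`:

* `finrank_quotient_eq_card` : `dim_κ (D ⧸ J) = #(prime factors of J, with multiplicity)`;
* `natTrailingDegree_charpoly_mulLeft` : the multiplicity of `0` as a root of the characteristic
  polynomial of multiplication by `v` on `D ⧸ J` is the number of prime factors containing `v`;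
* `roots_charpoly_mulLeft` : the roots of that characteristic polynomial are the values of `u` at
  the prime factors of `J`.
-/

namespace Fermat.Agent.S37.H577

open Polynomial UniqueFactorizationMonoid Module

/-- All residue fields of the `κ`-algebra `D` at maximal ideals are `κ`. -/
def ResidueTrivial (κ D : Type*) [Field κ] [CommRing D] [Algebra κ D] : Prop :=
  ∀ 𝔭 : Ideal D, 𝔭.IsMaximal → Function.Surjective (algebraMap κ (D ⧸ 𝔭))

section Dim

variable {κ D : Type*} [Field κ] [CommRing D] [IsDedekindDomain D] [Algebra κ D]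

/-- In a Dedekind domain there is no ideal strictly between `p * a` and `a` (`p` maximal). -/
theorem eq_of_mul_lt_le {p a I : Ideal D} (hp : p.IsMaximal) (ha : a ≠ ⊥)
    (h1 : p * a ≤ I) (h2 : I ≤ a) (h3 : I ≠ p * a) : I = a := by
  obtain ⟨I₀, rfl⟩ : a ∣ I := Ideal.dvd_iff_le.mpr h2
  have h4 : a * I₀ ∣ a * p := by rw [mul_comm a p]; exact Ideal.dvd_iff_le.mpr h1
  have h5 : I₀ ∣ p := (mul_dvd_mul_iff_left ha).mp h4
  have h6 : p ≤ I₀ := Ideal.dvd_iff_le.mp h5
  by_cases h7 : I₀ = ⊤
  · rw [h7, Ideal.mul_top]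
  · exact absurd (by rw [← hp.eq_of_le h7 h6, mul_comm]) h3

theorem dim_step (hres : ResidueTrivial κ D) (p a : Ideal D) (ha : a ≠ ⊥) (hp : Prime p)
    [hfin : Module.Finite κ (D ⧸ a)] :
    Module.Finite κ (D ⧸ (p * a)) ∧ finrank κ (D ⧸ (p * a)) = finrank κ (D ⧸ a) + 1 := by
  have hp0 : p ≠ ⊥ := hp.ne_zero
  have hpp : p.IsPrime := (Ideal.prime_iff_isPrime hp0).mp hp
  have hpm : p.IsMaximal := hpp.isMaximal hp0
  have hle : p * a ≤ a := Ideal.mul_le_right
  let f : (D ⧸ (p * a)) →ₗ[κ] (D ⧸ a) := (Ideal.Quotient.factorₐ κ hle).toLinearMap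
  have hf : Function.Surjective f := Ideal.Quotient.factor_surjective hle
  have hne : p * a ≠ a := by
    intro h
    have h1 : p * a = 1 * a := by rw [one_mul]; exact h
    have := mul_right_cancel₀ ha h1
    exact hpm.ne_top (by rw [this, Ideal.one_eq_top])
  obtain ⟨z₀, hz₀a, hz₀⟩ : ∃ z₀ ∈ a, z₀ ∉ p * a := by
    by_contra hcon
    push Not at hcon
    exact hne (le_antisymm hle hcon)
  have hsup : p * a ⊔ Ideal.span {z₀} = a := by
    apply eq_of_mul_lt_le hpm ha le_sup_left
    · exact sup_le hle ((Ideal.span_singleton_le_iff_mem _).mpr hz₀a)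
    · intro h
      apply hz₀
      rw [← h]
      exact Ideal.mem_sup_right (Ideal.mem_span_singleton_self z₀)
  have key : ∀ z ∈ a, ∃ c : κ, z - algebraMap κ D c * z₀ ∈ p * a := by
    intro z hz
    rw [← hsup] at hz
    obtain ⟨y, hy, w, hw, rfl⟩ := Submodule.mem_sup.mp hz
    obtain ⟨d, rfl⟩ := Ideal.mem_span_singleton'.mp hw
    obtain ⟨c, hc⟩ := hres p hpm (Ideal.Quotient.mk p d)
    refine ⟨c, ?_⟩
    have h1 : d - algebraMap κ D c ∈ p := by
      rw [← Ideal.Quotient.eq_zero_iff_mem, map_sub, ← hc, sub_eq_zero]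
      rfl
    have h2 : (d - algebraMap κ D c) * z₀ ∈ p * a := Ideal.mul_mem_mul h1 hz₀a
    have : y + d * z₀ - algebraMap κ D c * z₀ = y + (d - algebraMap κ D c) * z₀ := by ring
    rw [this]
    exact Ideal.add_mem _ hy h2
  have hker : LinearMap.ker f = κ ∙ (Ideal.Quotient.mk (p * a) z₀) := by
    apply le_antisymm
    · intro x hx
      obtain ⟨z, rfl⟩ := Ideal.Quotient.mk_surjective x
      have hz : z ∈ a := by
        have : f (Ideal.Quotient.mk (p * a) z) = Ideal.Quotient.mk a z := rfl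
        rw [LinearMap.mem_ker, this] at hx
        exact Ideal.Quotient.eq_zero_iff_mem.mp hx
      obtain ⟨c, hc⟩ := key z hz
      rw [Submodule.mem_span_singleton]
      refine ⟨c, ?_⟩
      have h := Ideal.Quotient.eq_zero_iff_mem.mpr hc
      rw [map_sub, map_mul, sub_eq_zero] at h
      rw [Algebra.smul_def, h]
      rfl
    · rw [Submodule.span_singleton_le_iff_mem, LinearMap.mem_ker]
      have : f (Ideal.Quotient.mk (p * a) z₀) = Ideal.Quotient.mk a z₀ := rfl
      rw [this]
      exact Ideal.Quotient.eq_zero_iff_mem.mpr hz₀a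
  have hz₀' : Ideal.Quotient.mk (p * a) z₀ ≠ 0 := fun h => hz₀ (Ideal.Quotient.eq_zero_iff_mem.mp h)
  have hfinker : Module.Finite κ (LinearMap.ker f) := by
    rw [hker]; infer_instance
  have hfinquot : Module.Finite κ ((D ⧸ (p * a)) ⧸ LinearMap.ker f) :=
    Module.Finite.equiv ((f.quotKerEquivOfSurjective hf).symm)
  have hfin' : Module.Finite κ (D ⧸ (p * a)) := Module.Finite.of_submodule_quotient (LinearMap.ker f)
  refine ⟨hfin', ?_⟩
  have h1 := LinearMap.finrank_range_add_finrank_ker f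
  rw [LinearMap.range_eq_top.mpr hf, finrank_top, hker, finrank_span_singleton hz₀'] at h1
  exact h1.symm

theorem finite_and_finrank_quotient (hres : ResidueTrivial κ D) (J : Ideal D) (hJ : J ≠ ⊥) :
    Module.Finite κ (D ⧸ J) ∧ finrank κ (D ⧸ J) = Multiset.card (normalizedFactors J) := by
  induction J using UniqueFactorizationMonoid.induction_on_prime with
  | h₁ => exact absurd rfl hJ
  | h₂ x hx =>
    have hx' : x = ⊤ := Ideal.isUnit_iff.mp hx
    subst hx'
    have : Subsingleton (D ⧸ (⊤ : Ideal D)) := Ideal.Quotient.subsingleton_iff.mpr rfl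
    refine ⟨inferInstance, ?_⟩
    rw [normalizedFactors_of_isUnit hx, Multiset.card_zero]
    exact finrank_zero_of_subsingleton
  | h₃ a p ha hp ih =>
    obtain ⟨h1, h2⟩ := ih ha
    obtain ⟨h3, h4⟩ := dim_step hres p a ha hp
    refine ⟨h3, ?_⟩
    rw [h4, h2, normalizedFactors_mul hp.ne_zero ha, normalizedFactors_irreducible hp.irreducible,
      normalize_eq, Multiset.card_add, Multiset.card_singleton, add_comm]

theorem finite_quotient (hres : ResidueTrivial κ D) (J : Ideal D) (hJ : J ≠ ⊥) :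
    Module.Finite κ (D ⧸ J) := (finite_and_finrank_quotient hres J hJ).1

theorem finrank_quotient_eq_card (hres : ResidueTrivial κ D) (J : Ideal D) (hJ : J ≠ ⊥) :
    finrank κ (D ⧸ J) = Multiset.card (normalizedFactors J) :=
  (finite_and_finrank_quotient hres J hJ).2

end Dim

section GE

variable {κ D : Type*} [Field κ] [CommRing D] [IsDedekindDomain D] [Algebra κ D]

omit [IsDedekindDomain D] in
theorem pow_card_mem_prod (v : D) (t : Multiset (Ideal D)) (ht : ∀ 𝔭 ∈ t, v ∈ 𝔭) :
    v ^ (Multiset.card t) ∈ t.prod := by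
  induction t using Multiset.induction with
  | empty => simp [Ideal.one_eq_top]
  | cons a t ih =>
    rw [Multiset.card_cons, Multiset.prod_cons, pow_succ']
    exact Ideal.mul_mem_mul (ht a (Multiset.mem_cons_self a t))
      (ih fun 𝔭 h𝔭 => ht 𝔭 (Multiset.mem_cons_of_mem h𝔭))

open scoped Classical in
/-- `I + (v ^ n)` is the product of the prime factors of `I` containing `v`, for `n` large. -/
theorem sup_span_pow_eq (I : Ideal D) (hI : I ≠ ⊥) (v : D) (n : ℕ)
    (hn : Multiset.card (normalizedFactors I) ≤ n) :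
    I ⊔ Ideal.span {v ^ n} = ((normalizedFactors I).filter (fun 𝔭 => v ∈ 𝔭)).prod := by
  set s := normalizedFactors I with hs
  set s₁ := s.filter (fun 𝔭 => v ∈ 𝔭) with hs₁
  set s₂ := s.filter (fun 𝔭 => ¬ v ∈ 𝔭) with hs₂
  have hsum : s₁ + s₂ = s := Multiset.filter_add_not _ s
  have hprod : s₁.prod * s₂.prod = I := by
    rw [← Multiset.prod_add, hsum, hs, Ideal.prod_normalizedFactors_eq_self hI]
  have hcard : Multiset.card s₁ ≤ n := le_trans (Multiset.card_le_card (Multiset.filter_le _ s)) hn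
  apply le_antisymm
  · apply sup_le
    · calc I = s₁.prod * s₂.prod := hprod.symm
        _ ≤ s₁.prod := Ideal.mul_le_left
    · rw [Ideal.span_singleton_le_iff_mem]
      have h1 : v ^ Multiset.card s₁ ∈ s₁.prod :=
        pow_card_mem_prod v s₁ fun 𝔭 h𝔭 => (Multiset.mem_filter.mp h𝔭).2
      have h2 : v ^ n = v ^ (n - Multiset.card s₁) * v ^ Multiset.card s₁ := by
        rw [← pow_add, Nat.sub_add_cancel hcard]
      rw [h2]
      exact Ideal.mul_mem_left _ _ h1
  · have hcomax : s₂.prod ⊔ Ideal.span {v ^ n} = ⊤ := by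
      by_contra h
      obtain ⟨M, hM, hle⟩ := Ideal.exists_le_maximal _ h
      have hvM : v ∈ M := by
        have : v ^ n ∈ M := hle (Ideal.mem_sup_right (Ideal.mem_span_singleton_self _))
        exact hM.isPrime.mem_of_pow_mem n this
      have h2 : s₂.prod ≤ M := le_trans le_sup_left hle
      obtain ⟨𝔭, h𝔭, h𝔭M⟩ := (Ideal.IsPrime.multiset_prod_le hM.isPrime).mp h2
      obtain ⟨h𝔭s, hv𝔭⟩ := Multiset.mem_filter.mp h𝔭
      have hprime : Prime 𝔭 := prime_of_normalized_factor 𝔭 h𝔭s
      have h𝔭0 : 𝔭 ≠ ⊥ := hprime.ne_zero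
      have h𝔭max : 𝔭.IsMaximal := ((Ideal.prime_iff_isPrime h𝔭0).mp hprime).isMaximal h𝔭0
      have := h𝔭max.eq_of_le hM.ne_top h𝔭M
      exact hv𝔭 (this ▸ hvM)
    calc s₁.prod = s₁.prod * ⊤ := by rw [Ideal.mul_top]
      _ = s₁.prod * (s₂.prod ⊔ Ideal.span {v ^ n}) := by rw [hcomax]
      _ = s₁.prod * s₂.prod ⊔ s₁.prod * Ideal.span {v ^ n} := by rw [Ideal.mul_sup]
      _ ≤ I ⊔ Ideal.span {v ^ n} := sup_le_sup (le_of_eq hprod) Ideal.mul_le_right

theorem mulLeft_pow_apply {V : Type*} [CommRing V] [Algebra κ V] (w : V) (n : ℕ) (x : V) :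
    ((LinearMap.mulLeft κ w) ^ n) x = w ^ n * x := by
  induction n generalizing x with
  | zero => simp
  | succ n ih => rw [pow_succ, Module.End.mul_apply, ih, LinearMap.mulLeft_apply, pow_succ]; ring

open scoped Classical in
/-- The multiplicity of `0` as a root of the characteristic polynomial of multiplication by `v`
on `D ⧸ I` is the number of prime factors of `I` (with multiplicity) containing `v`. -/
theorem natTrailingDegree_charpoly_mulLeft (hres : ResidueTrivial κ D) (I : Ideal D) (hI : I ≠ ⊥)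
    [Module.Finite κ (D ⧸ I)] (v : D) :
    (LinearMap.charpoly (LinearMap.mulLeft κ (Ideal.Quotient.mk I v))).natTrailingDegree =
      Multiset.card ((normalizedFactors I).filter (fun 𝔭 => v ∈ 𝔭)) := by
  set φ : Module.End κ (D ⧸ I) := LinearMap.mulLeft κ (Ideal.Quotient.mk I v) with hφ
  set n := finrank κ (D ⧸ I) with hn
  have hncard : n = Multiset.card (normalizedFactors I) := finrank_quotient_eq_card hres I hI
  rw [← LinearMap.finrank_maxGenEigenspace_zero_eq, Module.End.maxGenEigenspace_eq_genEigenspace_finrank,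
    Module.End.genEigenspace_zero_nat]
  set J := I ⊔ Ideal.span {v ^ n} with hJ
  have hIJ : I ≤ J := le_sup_left
  have hJ0 : J ≠ ⊥ := fun h => hI (le_bot_iff.mp (h ▸ hIJ))
  let ψ : (D ⧸ I) →ₗ[κ] (D ⧸ J) := (Ideal.Quotient.factorₐ κ hIJ).toLinearMap
  have hψ : Function.Surjective ψ := Ideal.Quotient.factor_surjective hIJ
  have hker : LinearMap.ker ψ = LinearMap.range (φ ^ n) := by
    ext x
    obtain ⟨z, rfl⟩ := Ideal.Quotient.mk_surjective x
    have h1 : ψ (Ideal.Quotient.mk I z) = Ideal.Quotient.mk J z := rfl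
    rw [LinearMap.mem_ker, h1, Ideal.Quotient.eq_zero_iff_mem, LinearMap.mem_range]
    constructor
    · intro hz
      obtain ⟨i, hi, w, hw, rfl⟩ := Submodule.mem_sup.mp hz
      obtain ⟨d, rfl⟩ := Ideal.mem_span_singleton'.mp hw
      refine ⟨Ideal.Quotient.mk I d, ?_⟩
      rw [mulLeft_pow_apply, ← map_pow, ← map_mul, eq_comm, Ideal.Quotient.mk_eq_mk_iff_sub_mem]
      have : i + d * v ^ n - v ^ n * d = i := by ring
      rw [this]; exact hi
    · rintro ⟨y, hy⟩
      obtain ⟨d, rfl⟩ := Ideal.Quotient.mk_surjective y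
      rw [mulLeft_pow_apply, ← map_pow, ← map_mul, Ideal.Quotient.mk_eq_mk_iff_sub_mem] at hy
      have : z = v ^ n * d - (v ^ n * d - z) := by ring
      rw [this]
      exact Ideal.sub_mem _
        (Ideal.mem_sup_right (Ideal.mul_mem_right _ _ (Ideal.mem_span_singleton_self _)))
        (Ideal.mem_sup_left hy)
  have h1 := LinearMap.finrank_range_add_finrank_ker ψ
  have h2 := LinearMap.finrank_range_add_finrank_ker (φ ^ n)
  rw [LinearMap.range_eq_top.mpr hψ, finrank_top, hker] at h1
  have h3 : finrank κ (LinearMap.ker (φ ^ n)) = finrank κ (D ⧸ J) := by omega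
  rw [h3]
  have hJeq : J = ((normalizedFactors I).filter (fun 𝔭 => v ∈ 𝔭)).prod :=
    sup_span_pow_eq I hI v n (le_of_eq hncard.symm)
  rw [finrank_quotient_eq_card hres J hJ0, hJeq, normalizedFactors_prod_of_prime]
  intro 𝔭 h𝔭
  exact prime_of_normalized_factor 𝔭 (Multiset.mem_filter.mp h𝔭).1

/-- The roots of the characteristic polynomial of multiplication by `u` on `D ⧸ I` are the values
of `u` at the prime factors of `I`. -/
theorem roots_charpoly_mulLeft (hres : ResidueTrivial κ D) (I : Ideal D) (hI : I ≠ ⊥)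
    [Module.Finite κ (D ⧸ I)] (u : D) (val : Ideal D → κ)
    (hval : ∀ 𝔭 ∈ normalizedFactors I, u - algebraMap κ D (val 𝔭) ∈ 𝔭) :
    (LinearMap.charpoly (LinearMap.mulLeft κ (Ideal.Quotient.mk I u))).roots =
      (normalizedFactors I).map val := by
  classical
  rw [Multiset.ext]
  intro a
  rw [count_roots, rootMultiplicity_eq_natTrailingDegree, ← LinearMap.charpoly_sub_smul,
    Multiset.count_map]
  have h1 : LinearMap.mulLeft κ (Ideal.Quotient.mk I u) - a • (1 : Module.End κ (D ⧸ I)) =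
      LinearMap.mulLeft κ (Ideal.Quotient.mk I (u - algebraMap κ D a)) := by
    ext x
    rw [LinearMap.sub_apply, LinearMap.mulLeft_apply, LinearMap.smul_apply,
      Module.End.one_apply, LinearMap.mulLeft_apply, map_sub, sub_mul, Algebra.smul_def]
    rfl
  rw [h1, natTrailingDegree_charpoly_mulLeft hres I hI]
  congr 1
  apply Multiset.filter_congr
  intro 𝔭 h𝔭
  have hprime : Prime 𝔭 := prime_of_normalized_factor 𝔭 h𝔭
  have h𝔭ne : 𝔭 ≠ ⊤ := ((Ideal.prime_iff_isPrime hprime.ne_zero).mp hprime).ne_top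
  have hv := hval 𝔭 h𝔭
  constructor
  · intro h
    by_contra hne
    have h2 : algebraMap κ D (val 𝔭 - a) ∈ 𝔭 := by
      have : algebraMap κ D (val 𝔭 - a) = (u - algebraMap κ D a) - (u - algebraMap κ D (val 𝔭)) := by
        rw [map_sub]; ring
      rw [this]; exact Ideal.sub_mem _ h hv
    have h3 : val 𝔭 - a ≠ 0 := sub_ne_zero.mpr (fun h => hne h.symm)
    have h4 : (1 : D) ∈ 𝔭 := by
      have : (1 : D) = algebraMap κ D ((val 𝔭 - a)⁻¹) * algebraMap κ D (val 𝔭 - a) := by
        rw [← map_mul, inv_mul_cancel₀ h3, map_one]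
      rw [this]; exact Ideal.mul_mem_left _ _ h2
    exact h𝔭ne ((Ideal.eq_top_iff_one _).mpr h4)
  · rintro rfl
    exact hv

end GE

end Fermat.Agent.S37.H577
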