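import Fermat.Agent.S37.H577.LinAlg

/-!
# S37 / RIM-core (helper577): characteristic polynomials on the two fibres of `C = B ⧸ J`

`A` a domain with fraction field `K`; `B` an `A`-algebra, `J` an ideal of `B` such that
`C = B ⧸ J` is a finite free, torsion-free `A`-module.

* generic fibre: `O` a `K`-algebra with `B → O` injective and `O = B[(A∖0)⁻¹]`;
  `fibreK_charpoly` : charpoly of `u` on `O ⧸ J O` is the image of the charpoly of `u` on `C`;
* special fibre: `A` local with residue field `k`, `Ob` a `k`-algebra with `B → Ob` surjective with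
  kernel `𝔪 B`; `fibrek_charpoly` : same for `Ob ⧸ J Ob`.
-/

namespace Fermat.Agent.S37.H577

open Polynomial Module

section GenericFibre

variable {A : Type*} [CommRing A] [IsDomain A]
variable (K : Type*) [Field K] [Algebra A K] [IsFractionRing A K]
variable {B : Type*} [CommRing B] [Algebra A B]
variable (O : Type*) [CommRing O] [Algebra B O] [Algebra A O] [IsScalarTower A B O]
  [Algebra K O] [IsScalarTower A K O]

/-- clearing denominators in `J O` -/
theorem exists_smul_mem_of_mem_map
    (hfrac : ∀ o : O, ∃ (z : B) (a : A), a ≠ 0 ∧ algebraMap A O a * o = algebraMap B O z)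
    (J : Ideal B) (o : O) (ho : o ∈ J.map (algebraMap B O)) :
    ∃ (a : A) (y : B), a ≠ 0 ∧ y ∈ J ∧ algebraMap A O a * o = algebraMap B O y := by
  unfold Ideal.map at ho
  induction ho using Submodule.span_induction with
  | mem o h =>
    obtain ⟨y, hy, rfl⟩ := h
    exact ⟨1, y, one_ne_zero, hy, by rw [map_one, one_mul]⟩
  | zero => exact ⟨1, 0, one_ne_zero, J.zero_mem, by simp⟩
  | add o₁ o₂ _ _ h₁ h₂ =>
    obtain ⟨a₁, y₁, ha₁, hy₁, e₁⟩ := h₁
    obtain ⟨a₂, y₂, ha₂, hy₂, e₂⟩ := h₂
    refine ⟨a₁ * a₂, algebraMap A B a₂ * y₁ + algebraMap A B a₁ * y₂, mul_ne_zero ha₁ ha₂,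
      J.add_mem (J.mul_mem_left _ hy₁) (J.mul_mem_left _ hy₂), ?_⟩
    rw [map_add, map_mul, map_mul, map_mul, ← e₁, ← e₂,
      ← IsScalarTower.algebraMap_apply A B O, ← IsScalarTower.algebraMap_apply A B O]
    ring
  | smul o' o _ h =>
    obtain ⟨a, y, ha, hy, e⟩ := h
    obtain ⟨z', a', ha', e'⟩ := hfrac o'
    refine ⟨a' * a, z' * y, mul_ne_zero ha' ha, J.mul_mem_left _ hy, ?_⟩
    rw [map_mul, map_mul, ← e, ← e', smul_eq_mul]
    ring

variable {O} in
theorem fibreK_charpoly
    (hinj : Function.Injective (algebraMap B O))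
    (hfrac : ∀ o : O, ∃ (z : B) (a : A), a ≠ 0 ∧ algebraMap A O a * o = algebraMap B O z)
    (J : Ideal B)
    (htf : ∀ (a : A) (z : B), a ≠ 0 → algebraMap A B a * z ∈ J → z ∈ J)
    [Module.Finite A (B ⧸ J)] [Module.Free A (B ⧸ J)]
    [Module.Finite K (O ⧸ J.map (algebraMap B O))] (u : B) :
    (LinearMap.mulLeft K (Ideal.Quotient.mk (J.map (algebraMap B O)) (algebraMap B O u))).charpoly =
      (LinearMap.mulLeft A (Ideal.Quotient.mk J u)).charpoly.map (algebraMap A K) := by
  classical
  set JO := J.map (algebraMap B O) with hJO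
  have hle : J ≤ Ideal.comap (IsScalarTower.toAlgHom A B O) JO := Ideal.le_comap_map
  let π : (B ⧸ J) →ₗ[A] (O ⧸ JO) :=
    (Ideal.quotientMapₐ JO (IsScalarTower.toAlgHom A B O) hle).toLinearMap
  have hπ : ∀ z : B, π (Ideal.Quotient.mk J z) = Ideal.Quotient.mk JO (algebraMap B O z) :=
    fun z => rfl
  have hker : LinearMap.ker π = ⊥ := by
    rw [eq_bot_iff]
    intro y hy
    obtain ⟨z, rfl⟩ := Ideal.Quotient.mk_surjective y
    rw [LinearMap.mem_ker, hπ, Ideal.Quotient.eq_zero_iff_mem] at hy
    obtain ⟨a, y', ha, hy', e⟩ := exists_smul_mem_of_mem_map O hfrac J _ hy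
    rw [Submodule.mem_bot, Ideal.Quotient.eq_zero_iff_mem]
    apply htf a z ha
    have : algebraMap A B a * z = y' := by
      apply hinj
      rw [map_mul, ← e, ← IsScalarTower.algebraMap_apply A B O]
    rw [this]; exact hy'
  let c := Module.Free.chooseBasis A (B ⧸ J)
  have hliA : LinearIndependent A (π ∘ c) := c.linearIndependent.map' π hker
  have hli : LinearIndependent K (π ∘ c) :=
    LinearIndependent.localization K (nonZeroDivisors A) hliA
  have hrange : ∀ y : B ⧸ J, π y ∈ Submodule.span K (Set.range (π ∘ c)) := by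
    intro y
    have h1 : y ∈ Submodule.span A (Set.range c) := by rw [c.span_eq]; trivial
    have h2 : π y ∈ Submodule.span A (Set.range (π ∘ c)) := by
      rw [Set.range_comp, ← Submodule.map_span]
      exact Submodule.mem_map_of_mem h1
    exact Submodule.span_le_restrictScalars A K _ h2
  have hsp : ⊤ ≤ Submodule.span K (Set.range (π ∘ c)) := by
    rintro v -
    obtain ⟨o, rfl⟩ := Ideal.Quotient.mk_surjective v
    obtain ⟨z, a, ha, e⟩ := hfrac o
    have haK : algebraMap A K a ≠ 0 := by
      rwa [Ne, map_eq_zero_iff _ (IsFractionRing.injective A K)]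
    have h1 : Ideal.Quotient.mk JO o =
        (algebraMap A K a)⁻¹ • π (Ideal.Quotient.mk J z) := by
      rw [hπ, ← e, Algebra.smul_def, map_mul, ← mul_assoc]
      have : (algebraMap K (O ⧸ JO)) (algebraMap A K a)⁻¹ *
          (Ideal.Quotient.mk JO) ((algebraMap A O) a) = 1 := by
        rw [IsScalarTower.algebraMap_apply A K O]
        change (algebraMap K (O ⧸ JO)) (algebraMap A K a)⁻¹ *
          (algebraMap K (O ⧸ JO)) (algebraMap A K a) = 1
        rw [← map_mul, inv_mul_cancel₀ haK, map_one]
      rw [this, one_mul]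
    rw [h1]
    exact Submodule.smul_mem _ _ (hrange _)
  apply charpoly_eq_map_of_basis c π hli hsp
  intro y
  obtain ⟨z, rfl⟩ := Ideal.Quotient.mk_surjective y
  rw [LinearMap.mulLeft_apply, LinearMap.mulLeft_apply, ← map_mul (Ideal.Quotient.mk J) u z,
    hπ, hπ, map_mul, map_mul]

end GenericFibre

section SpecialFibre

open IsLocalRing

variable {A : Type*} [CommRing A] [IsLocalRing A]
variable {B : Type*} [CommRing B] [Algebra A B]
variable {Ob : Type*} [CommRing Ob] [Algebra B Ob] [Algebra A Ob] [IsScalarTower A B Ob]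
  [Algebra (ResidueField A) Ob] [IsScalarTower A (ResidueField A) Ob]

theorem mul_mem_smul_top {C : Type*} [CommRing C] [Algebra A C] (I : Ideal A) (y y' : C)
    (hy : y ∈ (I • ⊤ : Submodule A C)) : y' * y ∈ (I • ⊤ : Submodule A C) := by
  refine Submodule.smul_induction_on hy ?_ ?_
  · intro r hr n _
    rw [mul_smul_comm]
    exact Submodule.smul_mem_smul hr Submodule.mem_top
  · intro x z hx hz
    rw [mul_add]; exact Submodule.add_mem _ hx hz

theorem mk_mem_smul_top_of_mem_map (I : Ideal A) (J : Ideal B) (e : B)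
    (he : e ∈ I.map (algebraMap A B)) :
    Ideal.Quotient.mk J e ∈ (I • ⊤ : Submodule A (B ⧸ J)) := by
  unfold Ideal.map at he
  induction he using Submodule.span_induction with
  | mem e h =>
    obtain ⟨m, hm, rfl⟩ := h
    have : Ideal.Quotient.mk J (algebraMap A B m) = m • (1 : B ⧸ J) := by
      rw [Algebra.smul_def, mul_one]; rfl
    rw [this]
    exact Submodule.smul_mem_smul hm Submodule.mem_top
  | zero => rw [map_zero]; exact Submodule.zero_mem _
  | add e₁ e₂ _ _ h₁ h₂ => rw [map_add]; exact Submodule.add_mem _ h₁ h₂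
  | smul z e _ h =>
    rw [smul_eq_mul, map_mul]
    exact mul_mem_smul_top I _ _ h

theorem repr_mem_of_mem_smul_top {C ι : Type*} [AddCommGroup C] [Module A C] (I : Ideal A)
    (c : Basis ι A C) (y : C) (hy : y ∈ (I • ⊤ : Submodule A C)) (i : ι) : c.repr y i ∈ I := by
  refine Submodule.smul_induction_on hy ?_ ?_
  · intro r hr n _
    rw [map_smul, Finsupp.smul_apply, smul_eq_mul]
    exact I.mul_mem_right _ hr
  · intro x z hx hz
    rw [map_add, Finsupp.add_apply]; exact I.add_mem hx hz

theorem fibrek_charpoly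
    (hsurj : Function.Surjective (algebraMap B Ob))
    (hker : ∀ z, algebraMap B Ob z = 0 → z ∈ (maximalIdeal A).map (algebraMap A B))
    (J : Ideal B)
    [Module.Finite A (B ⧸ J)] [Module.Free A (B ⧸ J)]
    [Module.Finite (ResidueField A) (Ob ⧸ J.map (algebraMap B Ob))] (u : B) :
    (LinearMap.mulLeft (ResidueField A)
        (Ideal.Quotient.mk (J.map (algebraMap B Ob)) (algebraMap B Ob u))).charpoly =
      (LinearMap.mulLeft A (Ideal.Quotient.mk J u)).charpoly.map (algebraMap A (ResidueField A)) := by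
  classical
  set Jb := J.map (algebraMap B Ob) with hJb
  have hle : J ≤ Ideal.comap (IsScalarTower.toAlgHom A B Ob) Jb := Ideal.le_comap_map
  let π : (B ⧸ J) →ₗ[A] (Ob ⧸ Jb) :=
    (Ideal.quotientMapₐ Jb (IsScalarTower.toAlgHom A B Ob) hle).toLinearMap
  have hπ : ∀ z : B, π (Ideal.Quotient.mk J z) = Ideal.Quotient.mk Jb (algebraMap B Ob z) :=
    fun z => rfl
  have hπsurj : Function.Surjective π := by
    intro v
    obtain ⟨o, rfl⟩ := Ideal.Quotient.mk_surjective v
    obtain ⟨z, rfl⟩ := hsurj o
    exact ⟨Ideal.Quotient.mk J z, hπ z⟩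
  have hkerπ : ∀ y, π y = 0 → y ∈ (maximalIdeal A • ⊤ : Submodule A (B ⧸ J)) := by
    intro y hy
    obtain ⟨z, rfl⟩ := Ideal.Quotient.mk_surjective y
    rw [hπ, Ideal.Quotient.eq_zero_iff_mem, hJb,
      Ideal.mem_map_iff_of_surjective _ hsurj] at hy
    obtain ⟨y', hy', e⟩ := hy
    have h1 : z - y' ∈ (maximalIdeal A).map (algebraMap A B) := by
      apply hker
      rw [map_sub, e, sub_self]
    have h2 : Ideal.Quotient.mk J z = Ideal.Quotient.mk J (z - y') := by
      rw [map_sub, Ideal.Quotient.eq_zero_iff_mem.mpr hy', sub_zero]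
    rw [h2]
    exact mk_mem_smul_top_of_mem_map _ J _ h1
  let c := Module.Free.chooseBasis A (B ⧸ J)
  have hsmul : ∀ (a : A) (v : Ob ⧸ Jb), (residue A a) • v = a • v := by
    intro a v
    exact algebraMap_smul (ResidueField A) a v
  have hli : LinearIndependent (ResidueField A) (π ∘ c) := by
    rw [Fintype.linearIndependent_iff]
    intro g hg i
    have hlift : ∀ j, ∃ a : A, residue A a = g j := fun j => residue_surjective (g j)
    choose a ha using hlift
    have h1 : π (∑ j, a j • c j) = 0 := by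
      rw [map_sum, ← hg]
      apply Finset.sum_congr rfl
      intro j _
      rw [map_smul, ← ha j, hsmul]
      rfl
    have h2 := repr_mem_of_mem_smul_top (maximalIdeal A) c _ (hkerπ _ h1) i
    rw [c.repr_sum_self] at h2
    rw [← ha i]
    exact (residue_eq_zero_iff _).mpr h2
  have hsp : ⊤ ≤ Submodule.span (ResidueField A) (Set.range (π ∘ c)) := by
    rintro v -
    obtain ⟨y, rfl⟩ := hπsurj v
    have h1 : y ∈ Submodule.span A (Set.range c) := by rw [c.span_eq]; trivial
    have h2 : π y ∈ Submodule.span A (Set.range (π ∘ c)) := by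
      rw [Set.range_comp, ← Submodule.map_span]
      exact Submodule.mem_map_of_mem h1
    exact Submodule.span_le_restrictScalars A (ResidueField A) _ h2
  apply charpoly_eq_map_of_basis c π hli hsp
  intro y
  obtain ⟨z, rfl⟩ := Ideal.Quotient.mk_surjective y
  rw [LinearMap.mulLeft_apply, LinearMap.mulLeft_apply, ← map_mul (Ideal.Quotient.mk J) u z,
    hπ, hπ, map_mul, map_mul]

end SpecialFibre

end Fermat.Agent.S37.H577
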