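import Mathlib

/-!
# S37 / RIM-core (helper577): Hensel-type factorisation over a valuation ring with
algebraically closed fraction field

`A` a valuation ring, `K = Frac A` algebraically closed, `k = A/𝔪`.

* `exists_root_mem_maximalIdeal` : `h ∈ A[X]`, `h̄ ≠ 0`, `h(0) ∈ 𝔪` ⟹ `h` has a root in `𝔪`;
* `exists_root_sub_mem` : `g ∈ A[X]`, `ḡ ≠ 0`, `g(c) ∈ 𝔪` ⟹ `g` has a root `γ ≡ c mod 𝔪`;
* `exists_factorization` : `g = g₁ * g₂`, `g₁` monic, `ḡ₁ = (X - c̄)^deg`, `ḡ₂(c̄) ≠ 0`,
  `g₁`, `g₂` comaximal.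
-/

namespace Fermat.Agent.S37.H577

open Polynomial IsLocalRing

section Gauss

variable {A : Type*} [CommRing A] [IsDomain A] [ValuationRing A]

theorem exists_root_mem_maximalIdeal (K : Type*) [Field K] [Algebra A K] [IsFractionRing A K] [IsAlgClosed K]
    (h : A[X]) (hh : h.map (residue A) ≠ 0)
    (h0 : h.coeff 0 ∈ maximalIdeal A) : ∃ a ∈ maximalIdeal A, h.IsRoot a := by
  classical
  by_contra hcon
  push Not at hcon
  set hK := h.map (algebraMap A K) with hhK
  have hinj := IsFractionRing.injective A K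
  have hne : h ≠ 0 := fun h' => hh (by rw [h', Polynomial.map_zero])
  have hKne : hK ≠ 0 := (Polynomial.map_ne_zero_iff hinj).mpr hne
  have hγ0 : ∀ γ ∈ hK.roots, γ ≠ 0 := by
    rintro γ hγ rfl
    have hγr : hK.IsRoot 0 := (mem_roots hKne).mp hγ
    have hra : h.IsRoot 0 := by
      apply IsRoot.of_map (f := algebraMap A K) _ hinj
      rw [map_zero]; exact hγr
    exact hcon 0 (Ideal.zero_mem _) hra
  have hroot : ∀ γ ∈ hK.roots, ∃ d : A, algebraMap A K d = γ⁻¹ := by
    intro γ hγ
    have hγr : hK.IsRoot γ := (mem_roots hKne).mp hγ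
    rcases ValuationRing.isInteger_or_isInteger A γ with ⟨a, ha⟩ | ⟨d, hd⟩
    · have hra : h.IsRoot a := by
        apply IsRoot.of_map (f := algebraMap A K) _ hinj
        rw [ha]; exact hγr
      have hau : IsUnit a := by
        by_contra hnu
        exact hcon a ((mem_maximalIdeal a).mpr hnu) hra
      obtain ⟨u, rfl⟩ := hau
      refine ⟨((u⁻¹ : Aˣ) : A), ?_⟩
      rw [← ha]
      apply eq_inv_of_mul_eq_one_left
      rw [← map_mul, Units.inv_mul, map_one]
    · exact ⟨d, hd⟩
  choose! δ hδ using hroot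
  have hsplit : hK = C hK.leadingCoeff * (hK.roots.map (fun γ => X - C γ)).prod :=
    (IsAlgClosed.splits hK).eq_prod_roots
  have hfac : ∀ γ ∈ hK.roots, (X - C γ : K[X]) = C (-γ) * (1 - C (algebraMap A K (δ γ)) * X) := by
    intro γ hγ
    rw [hδ γ hγ, mul_sub, mul_one, ← mul_assoc, ← C_mul, neg_mul, mul_inv_cancel₀ (hγ0 γ hγ)]
    simp
    ring
  set w : A[X] := (hK.roots.map (fun γ => (1 : A[X]) - C (δ γ) * X)).prod with hw
  have hwmap : w.map (algebraMap A K) =
      (hK.roots.map (fun γ => (1 : K[X]) - C (algebraMap A K (δ γ)) * X)).prod := by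
    rw [hw, Polynomial.map_multiset_prod, Multiset.map_map]
    congr 1
    apply Multiset.map_congr rfl
    intro γ _
    simp
  have hprod : (hK.roots.map (fun γ => X - C γ)).prod =
      C ((hK.roots.map (fun γ => -γ)).prod) * w.map (algebraMap A K) := by
    rw [hwmap, Multiset.map_congr rfl hfac, Multiset.prod_map_mul, map_multiset_prod,
      Multiset.map_map]
    rfl
  have hw0 : w.coeff 0 = 1 := by
    rw [coeff_zero_eq_eval_zero, hw, eval_multiset_prod, Multiset.map_map]
    apply Multiset.prod_eq_one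
    intro x hx
    obtain ⟨γ, _, rfl⟩ := Multiset.mem_map.mp hx
    simp
  set e : K := hK.leadingCoeff * (hK.roots.map (fun γ => -γ)).prod with he
  have hKe : hK = C e * w.map (algebraMap A K) := by
    rw [he, C_mul, mul_assoc, ← hprod]
    exact hsplit
  have he0 : e = algebraMap A K (h.coeff 0) := by
    have h1 : hK.coeff 0 = e := by
      conv_lhs => rw [hKe]
      rw [coeff_C_mul, coeff_map, hw0, map_one, mul_one]
    rw [← h1, hhK, coeff_map]
  have hfinal : h = C (h.coeff 0) * w := by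
    apply Polynomial.map_injective _ hinj
    rw [Polynomial.map_mul, Polynomial.map_C, ← he0]
    exact hKe
  apply hh
  rw [hfinal, Polynomial.map_mul, Polynomial.map_C, (residue_eq_zero_iff _).mpr h0, map_zero,
    zero_mul]

theorem comp_X_add_C_ne_zero {R : Type*} [CommRing R] (p : R[X]) (hp : p ≠ 0) (a : R) :
    p.comp (X + C a) ≠ 0 := by
  intro h
  apply hp
  have : p = (p.comp (X + C a)).comp (X - C a) := by
    rw [comp_assoc]
    simp
  rw [this, h, zero_comp]

theorem exists_root_sub_mem (K : Type*) [Field K] [Algebra A K] [IsFractionRing A K] [IsAlgClosed K]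
    (g : A[X]) (hg : g.map (residue A) ≠ 0) (c : A)
    (hc : g.eval c ∈ maximalIdeal A) : ∃ γ : A, g.IsRoot γ ∧ γ - c ∈ maximalIdeal A := by
  set h := g.comp (X + C c) with hh
  have h0 : h.coeff 0 ∈ maximalIdeal A := by
    rw [coeff_zero_eq_eval_zero, hh, eval_comp]
    simpa using hc
  have hne : h.map (residue A) ≠ 0 := by
    rw [hh, Polynomial.map_comp]
    simp only [Polynomial.map_add, Polynomial.map_X, Polynomial.map_C]
    exact comp_X_add_C_ne_zero _ hg _
  obtain ⟨a, ha, hra⟩ := exists_root_mem_maximalIdeal K h hne h0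
  refine ⟨a + c, ?_, by simpa using ha⟩
  rw [IsRoot.def, hh, eval_comp] at hra
  simpa using hra

theorem exists_factorization (K : Type*) [Field K] [Algebra A K] [IsFractionRing A K] [IsAlgClosed K]
    (g : A[X]) (hg : g.map (residue A) ≠ 0) (c : A) :
    ∃ g₁ g₂ : A[X], g = g₁ * g₂ ∧ g₁.Monic ∧
      g₁.map (residue A) = (X - C (residue A c)) ^ g₁.natDegree ∧
      (g₂.map (residue A)).eval (residue A c) ≠ 0 ∧ IsCoprime g₁ g₂ := by
  induction hn : g.natDegree using Nat.strong_induction_on generalizing g with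
  | _ n ih =>
    by_cases h0 : (g.map (residue A)).eval (residue A c) = 0
    · have hc : g.eval c ∈ maximalIdeal A := by
        rw [← residue_eq_zero_iff, ← eval_map_apply]; exact h0
      obtain ⟨γ, hγ, hγc⟩ := exists_root_sub_mem K g hg c hc
      have hres : residue A γ = residue A c := by
        rw [← sub_eq_zero, ← map_sub]; exact (residue_eq_zero_iff _).mpr hγc
      set q := g /ₘ (X - C γ) with hq
      have hgq : g = (X - C γ) * q := (mul_divByMonic_eq_iff_isRoot.mpr hγ).symm
      have hgne : g ≠ 0 := fun h' => hg (by rw [h', Polynomial.map_zero])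
      have hqne : q ≠ 0 := fun h' => hgne (by rw [hgq, h', mul_zero])
      have hqbar : q.map (residue A) ≠ 0 := by
        intro h'
        apply hg
        rw [hgq, Polynomial.map_mul, h', mul_zero]
      have hdeg : g.natDegree = q.natDegree + 1 := by
        conv_lhs => rw [hgq]
        rw [natDegree_mul (X_sub_C_ne_zero γ) hqne, natDegree_X_sub_C, add_comm]
      obtain ⟨q₁, g₂, hq12, hq₁m, hq₁bar, hg₂, hcop⟩ :=
        ih q.natDegree (by omega) q hqbar rfl
      refine ⟨(X - C γ) * q₁, g₂, ?_, (monic_X_sub_C γ).mul hq₁m, ?_, hg₂, ?_⟩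
      · rw [hgq, hq12, mul_assoc]
      · rw [(monic_X_sub_C γ).natDegree_mul hq₁m, natDegree_X_sub_C, Polynomial.map_mul,
          hq₁bar, Polynomial.map_sub, Polynomial.map_X, Polynomial.map_C, hres, add_comm, pow_succ']
      · apply IsCoprime.mul_left _ hcop
        have hu : IsUnit (g₂.eval γ) := by
          rw [← notMem_maximalIdeal, ← residue_eq_zero_iff, ← eval_map_apply, hres]
          exact hg₂
        obtain ⟨u, hu⟩ := hu
        refine ⟨-C ((u⁻¹ : Aˣ) : A) * (g₂ /ₘ (X - C γ)), C ((u⁻¹ : Aˣ) : A), ?_⟩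
        have h1 : g₂ %ₘ (X - C γ) + (X - C γ) * (g₂ /ₘ (X - C γ)) = g₂ :=
          modByMonic_add_div g₂ (X - C γ)
        rw [modByMonic_X_sub_C_eq_C_eval, ← hu] at h1
        have h2 : -C ((u⁻¹ : Aˣ) : A) * (g₂ /ₘ (X - C γ)) * (X - C γ) + C ((u⁻¹ : Aˣ) : A) * g₂ =
            C ((u⁻¹ : Aˣ) : A) * (g₂ - (X - C γ) * (g₂ /ₘ (X - C γ))) := by ring
        rw [h2]
        have h3 : g₂ - (X - C γ) * (g₂ /ₘ (X - C γ)) = C (u : A) := by
          rw [eq_comm, eq_sub_iff_add_eq]; exact h1
        rw [h3, ← C_mul, Units.inv_mul, C_1]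
    · exact ⟨1, g, (one_mul g).symm, monic_one, by simp, h0, isCoprime_one_left⟩

end Gauss

end Fermat.Agent.S37.H577
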