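import Mathlib

/-!
# S37 / RIM-core (helper577): auxiliary linear algebra

* `exists_multiset_roots` : a monic polynomial over an integrally closed domain with algebraically
  closed fraction field is a product of linear factors over the domain;
* `charpoly_eq_map_of_basis` : base change of the characteristic polynomial along an `A`-linear map
  carrying a basis to a basis;
* `card_filter_eq_of_map_eq` : comparison of filtered multisets.
-/

namespace Fermat.Agent.S37.H577

open Polynomial Module

theorem exists_multiset_roots {A : Type*} [CommRing A] [IsDomain A] [IsIntegrallyClosed A]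
    (K : Type*) [Field K] [Algebra A K] [IsFractionRing A K] [IsAlgClosed K]
    (χ : A[X]) (hχ : χ.Monic) : ∃ R : Multiset A, χ = (R.map (fun a => X - C a)).prod := by
  classical
  set χK := χ.map (algebraMap A K) with hχK
  have hinj := IsFractionRing.injective A K
  have hmonic : χK.Monic := hχ.map _
  have hsplit : χK = (χK.roots.map (fun γ => X - C γ)).prod :=
    (IsAlgClosed.splits χK).eq_prod_roots_of_monic hmonic
  have hroot : ∀ γ ∈ χK.roots, ∃ a : A, algebraMap A K a = γ := by
    intro γ hγ
    apply IsIntegrallyClosed.algebraMap_eq_of_integral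
    refine ⟨χ, hχ, ?_⟩
    have := (mem_roots hmonic.ne_zero).mp hγ
    rwa [IsRoot.def, hχK, eval_map] at this
  choose! a ha using hroot
  refine ⟨χK.roots.map a, ?_⟩
  apply Polynomial.map_injective _ hinj
  rw [Polynomial.map_multiset_prod, Multiset.map_map, Multiset.map_map]
  conv_lhs => rw [← hχK, hsplit]
  congr 1
  apply Multiset.map_congr rfl
  intro γ hγ
  simp [ha γ hγ]

theorem charpoly_eq_map_of_basis {A κ C V ι : Type*} [CommRing A] [Field κ] [Algebra A κ]
    [AddCommGroup C] [Module A C] [AddCommGroup V] [Module κ V] [Module A V]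
    [IsScalarTower A κ V] [Fintype ι] [DecidableEq ι] [Module.Free A C] [Module.Finite A C]
    [Module.Finite κ V]
    (c : Basis ι A C) (π : C →ₗ[A] V) (hli : LinearIndependent κ (π ∘ c))
    (hsp : ⊤ ≤ Submodule.span κ (Set.range (π ∘ c)))
    (φ : Module.End A C) (ψ : Module.End κ V) (hcomm : ∀ z, ψ (π z) = π (φ z)) :
    ψ.charpoly = φ.charpoly.map (algebraMap A κ) := by
  set bK : Basis ι κ V := Basis.mk hli hsp with hbK
  have hb : ∀ i, bK i = π (c i) := fun i => by rw [hbK, Basis.mk_apply]; rfl
  rw [← LinearMap.charpoly_toMatrix ψ bK, ← LinearMap.charpoly_toMatrix φ c,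
    ← Matrix.charpoly_map]
  congr 1
  ext i j
  rw [LinearMap.toMatrix_apply, Matrix.map_apply, LinearMap.toMatrix_apply, hb, hcomm]
  have h1 : φ (c j) = ∑ l, (c.repr (φ (c j))) l • c l := (c.sum_repr _).symm
  have h2 : π (φ (c j)) = ∑ l, (algebraMap A κ ((c.repr (φ (c j))) l)) • bK l := by
    conv_lhs => rw [h1]
    rw [map_sum]
    apply Finset.sum_congr rfl
    intro l _
    rw [map_smul, hb, algebraMap_smul]
  rw [h2, Basis.repr_sum_self]

theorem card_filter_eq_of_map_eq {α β γ : Type*} (S : Multiset α) (T : Multiset β)
    (f : α → γ) (g : β → γ) (h : S.map f = T.map g) (p : γ → Prop) [DecidablePred p] :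
    Multiset.card (S.filter (p ∘ f)) = Multiset.card (T.filter (p ∘ g)) := by
  have h1 := congrArg (fun s => Multiset.card (Multiset.filter p s)) h
  simpa [Multiset.filter_map] using h1

end Fermat.Agent.S37.H577
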