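import Fermat.Agent.S37.H577.Points
import Fermat.Agent.S37.H577.Fibres

/-!
# S37 / RIM-core (helper577): SPECIALIZATION OF ZEROS (conservation of number)

`A` valuation ring with algebraically closed fraction field `K`, residue field `k`.
`B` an `A`-algebra, finite as a module over `A[x]`; `O = B[(A∖0)⁻¹]` and `Ob = B ⧸ 𝔪B` Dedekind
domains with residue fields `K` resp. `k`.  For `b ∈ B` with nonzero reduction and every maximal
ideal `𝔮` of `Ob`:

  `ord_𝔮 (b̄) = Σ_{𝔭 reducing to 𝔮} ord_𝔭 (b)`      (`spec_zeros`)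

where `𝔭` (maximal ideal of `O`) reduces to `𝔮` iff `z ∈ 𝔭 ∩ B ⟹ z̄ ∈ 𝔮`.
-/

namespace Fermat.Agent.S37.H577

open Polynomial IsLocalRing UniqueFactorizationMonoid Module

section Main

variable {A : Type*} [CommRing A] [IsDomain A] [ValuationRing A]
variable (K : Type*) [Field K] [Algebra A K] [IsFractionRing A K] [IsAlgClosed K]
variable {B : Type*} [CommRing B] [Algebra A B]
variable {O : Type*} [CommRing O] [IsDedekindDomain O] [Algebra B O] [Algebra A O]
  [IsScalarTower A B O] [Algebra K O] [IsScalarTower A K O]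
variable {Ob : Type*} [CommRing Ob] [IsDedekindDomain Ob] [Algebra B Ob] [Algebra A Ob]
  [IsScalarTower A B Ob] [Algebra (ResidueField A) Ob] [IsScalarTower A (ResidueField A) Ob]

omit [IsDedekindDomain Ob] in
/-- the image of `𝔪 B` in `Ob` is zero -/
theorem algebraMap_eq_zero_of_mem_map (z : B)
    (hz : z ∈ (maximalIdeal A).map (algebraMap A B)) : algebraMap B Ob z = 0 := by
  have h : (maximalIdeal A).map (algebraMap A B) ≤ RingHom.ker (algebraMap B Ob) := by
    rw [Ideal.map_le_iff_le_comap]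
    intro m hm
    rw [Ideal.mem_comap, RingHom.mem_ker, ← IsScalarTower.algebraMap_apply A B Ob,
      IsScalarTower.algebraMap_apply A (ResidueField A) Ob]
    have : algebraMap A (ResidueField A) m = 0 := (residue_eq_zero_iff m).mpr hm
    rw [this, map_zero]
  exact h hz

omit [IsDedekindDomain Ob] [Algebra B Ob] [IsScalarTower A B Ob]
  [Algebra (ResidueField A) Ob] [IsScalarTower A (ResidueField A) Ob] in
/-- units of `A` do not lie in proper ideals of `Ob` -/
theorem algebraMap_notMem_of_isUnit (𝔮 : Ideal Ob) (h𝔮 : 𝔮 ≠ ⊤) (a : A) (ha : IsUnit a) :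
    algebraMap A Ob a ∉ 𝔮 := fun h =>
  h𝔮 (Ideal.eq_top_of_isUnit_mem _ h (ha.map (algebraMap A Ob)))

omit [IsDedekindDomain Ob] [Algebra (ResidueField A) Ob] [IsScalarTower A (ResidueField A) Ob] in
/-- the polynomial `g₂` with `ḡ₂(c̄) ≠ 0` is a unit at `𝔮 ∋ x - c` -/
theorem aeval_notMem (x : B) (c : A) (g₂ : A[X])
    (hg₂ : (g₂.map (residue A)).eval (residue A c) ≠ 0)
    (𝔮 : Ideal Ob) (h𝔮 : 𝔮 ≠ ⊤) (hxc : algebraMap B Ob (x - algebraMap A B c) ∈ 𝔮) :
    algebraMap B Ob (aeval x g₂) ∉ 𝔮 := by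
  intro h
  have hu : IsUnit (g₂.eval c) := by
    rw [← notMem_maximalIdeal, ← residue_eq_zero_iff, ← eval_map_apply]
    exact hg₂
  apply algebraMap_notMem_of_isUnit 𝔮 h𝔮 _ hu
  have h1 : g₂ %ₘ (X - C c) + (X - C c) * (g₂ /ₘ (X - C c)) = g₂ := modByMonic_add_div g₂ (X - C c)
  rw [modByMonic_X_sub_C_eq_C_eval] at h1
  have h2 : aeval x g₂ = algebraMap A B (g₂.eval c) +
      (x - algebraMap A B c) * aeval x (g₂ /ₘ (X - C c)) := by
    conv_lhs => rw [← h1]
    simp [aeval_C]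
  have h3 : algebraMap A Ob (g₂.eval c) = algebraMap B Ob (aeval x g₂) -
      algebraMap B Ob (x - algebraMap A B c) * algebraMap B Ob (aeval x (g₂ /ₘ (X - C c))) := by
    rw [h2, map_add, map_mul, ← IsScalarTower.algebraMap_apply A B Ob]
    ring
  rw [h3]
  exact 𝔮.sub_mem h (𝔮.mul_mem_right _ hxc)

/-- A maximal ideal `𝔭 ⊇ J O` of the generic fibre has value of `u` in `𝔪` iff it reduces to
`𝔮`, provided `ū` vanishes exactly at `𝔮` among the primes over `J Ob`. -/
theorem redTo_iff (x : B) (hfin : FiniteOver A x)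
    (hsurj : Function.Surjective (algebraMap B Ob))
    (hker : ∀ z, algebraMap B Ob z = 0 → z ∈ (maximalIdeal A).map (algebraMap A B))
    (hresK : ResidueTrivial K O)
    (g₁ : A[X]) (hg₁ : g₁.Monic) (J : Ideal B) (hg₁J : aeval x g₁ ∈ J)
    (hJb0 : J.map (algebraMap B Ob) ≠ ⊥)
    (𝔮 : Ideal Ob) (h𝔮 : 𝔮.IsMaximal) (u : B) (hu𝔮 : algebraMap B Ob u ∈ 𝔮)
    (hune : ∀ 𝔮' ∈ normalizedFactors (J.map (algebraMap B Ob)), 𝔮' ≠ 𝔮 →
      algebraMap B Ob u ∉ 𝔮')
    (𝔭 : Ideal O) (h𝔭 : 𝔭.IsMaximal) (hJ𝔭 : J.map (algebraMap B O) ≤ 𝔭) :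
    (∃ m ∈ maximalIdeal A, algebraMap A K m = valAt hresK (algebraMap B O u) 𝔭) ↔
      (∀ z : B, algebraMap B O z ∈ 𝔭 → algebraMap B Ob z ∈ 𝔮) := by
  classical
  set ev : O →ₐ[K] K := evalAt 𝔭 (hresK 𝔭 h𝔭) with hev
  let P : B →ₐ[A] K := (ev.restrictScalars A).comp (IsScalarTower.toAlgHom A B O)
  have hP : ∀ z, P z = ev (algebraMap B O z) := fun z => rfl
  have hP0 : ∀ z, P z = 0 ↔ algebraMap B O z ∈ 𝔭 := fun z => by
    rw [hP, hev]; exact evalAt_eq_zero_iff 𝔭 (hresK 𝔭 h𝔭) _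
  have hPg : P (aeval x g₁) = 0 := (hP0 _).mpr (hJ𝔭 (Ideal.mem_map_of_mem _ hg₁J))
  have hint := exists_algebraMap_eq_of_point x hfin g₁ hg₁ P hPg
  have hinjA := IsFractionRing.injective A K
  rw [valAt_eq hresK (algebraMap B O u) 𝔭]
  constructor
  · rintro ⟨m, hm, hmu⟩
    let I : Ideal B :=
      { carrier := {z | ∃ m ∈ maximalIdeal A, algebraMap A K m = P z}
        add_mem' := by
          rintro z₁ z₂ ⟨m₁, hm₁, e₁⟩ ⟨m₂, hm₂, e₂⟩
          exact ⟨m₁ + m₂, Ideal.add_mem _ hm₁ hm₂, by rw [map_add, map_add, e₁, e₂]⟩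
        zero_mem' := ⟨0, Ideal.zero_mem _, by rw [map_zero, map_zero]⟩
        smul_mem' := by
          rintro z' z ⟨m, hm, e⟩
          obtain ⟨a', ha'⟩ := hint z'
          exact ⟨a' * m, Ideal.mul_mem_left _ _ hm, by
            rw [smul_eq_mul, map_mul, map_mul, e, ha']⟩ }
    have hImem : ∀ z, z ∈ I ↔ ∃ m ∈ maximalIdeal A, algebraMap A K m = P z := fun z => Iff.rfl
    have hI1 : (1 : B) ∉ I := by
      rintro ⟨m, hm, e⟩
      rw [map_one, ← map_one (algebraMap A K)] at e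
      have := hinjA e
      rw [this] at hm
      exact (Ideal.ne_top_iff_one _).mp (maximalIdeal.isMaximal A).ne_top hm
    have h𝔪I : (maximalIdeal A).map (algebraMap A B) ≤ I :=
      Ideal.map_le_iff_le_comap.mpr (fun m hm => ⟨m, hm, (P.commutes m).symm⟩)
    have hkerI : ∀ z, algebraMap B O z ∈ 𝔭 → z ∈ I := fun z hz =>
      ⟨0, Ideal.zero_mem _, by rw [map_zero]; exact ((hP0 z).mpr hz).symm⟩
    have hJI : J ≤ I := fun z hz => hkerI z (hJ𝔭 (Ideal.mem_map_of_mem _ hz))
    have hIρ : I.map (algebraMap B Ob) ≠ ⊤ := by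
      intro htop
      have h1 : (1 : Ob) ∈ I.map (algebraMap B Ob) := htop ▸ Submodule.mem_top
      obtain ⟨z, hz, hz1⟩ := (Ideal.mem_map_iff_of_surjective _ hsurj).mp h1
      have h2 : z - 1 ∈ I := h𝔪I (hker _ (by rw [map_sub, hz1, map_one, sub_self]))
      apply hI1
      have := I.sub_mem hz h2
      simpa using this
    obtain ⟨𝔐, h𝔐, hle⟩ := Ideal.exists_le_maximal _ hIρ
    have h𝔐mem : 𝔐 ∈ normalizedFactors (J.map (algebraMap B Ob)) :=
      (Ideal.mem_normalizedFactors_iff hJb0).mpr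
        ⟨h𝔐.isPrime, le_trans (Ideal.map_mono hJI) hle⟩
    have hu𝔐 : algebraMap B Ob u ∈ 𝔐 := hle (Ideal.mem_map_of_mem _ ⟨m, hm, hmu⟩)
    have h𝔐𝔮 : 𝔐 = 𝔮 := by
      by_contra hne
      exact hune 𝔐 h𝔐mem hne hu𝔐
    intro z hz
    rw [← h𝔐𝔮]
    exact hle (Ideal.mem_map_of_mem _ (hkerI z hz))
  · intro hred
    obtain ⟨a, ha⟩ := hint u
    refine ⟨a, ?_, ha⟩
    by_contra hna
    have hau : IsUnit a := notMem_maximalIdeal.mp hna
    have h1 : algebraMap B O (u - algebraMap A B a) ∈ 𝔭 := by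
      rw [← hP0, map_sub, P.commutes, ha, sub_self]
    have h2 := hred _ h1
    have h3 : algebraMap A Ob a ∈ 𝔮 := by
      have : algebraMap A Ob a = algebraMap B Ob u - algebraMap B Ob (u - algebraMap A B a) := by
        rw [map_sub, ← IsScalarTower.algebraMap_apply A B Ob]; ring
      rw [this]
      exact 𝔮.sub_mem hu𝔮 h2
    exact algebraMap_notMem_of_isUnit 𝔮 h𝔮.ne_top a hau h3

omit [IsDomain A] [ValuationRing A] in
theorem roots_map_prod_X_sub_C {F : Type*} [Field F] (f : A →+* F) (R : Multiset A) :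
    (((R.map (fun a => X - C a)).prod).map f).roots = R.map f := by
  rw [Polynomial.map_multiset_prod, Multiset.map_map]
  have h : (Polynomial.map f ∘ fun a => X - C a) = ((fun y => X - C y) ∘ f) := by
    funext a
    simp
  rw [h, ← Multiset.map_map, roots_multiset_prod_X_sub_C]

open scoped Classical in
/-- **Specialization of zeros.**  For `b ∈ B` with nonzero reduction and a maximal ideal `𝔮` of the
special fibre `Ob`, the multiplicity of `𝔮` in `(b̄)` is the number (with multiplicity) of prime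
factors `𝔭` of `(b)` in the generic fibre `O` which reduce to `𝔮`. -/
theorem spec_zeros (x : B) (hfin : FiniteOver A x)
    (hinj : Function.Injective (algebraMap B O))
    (hfrac : ∀ o : O, ∃ (z : B) (a : A), a ≠ 0 ∧ algebraMap A O a * o = algebraMap B O z)
    (hsurj : Function.Surjective (algebraMap B Ob))
    (hker : ∀ z, algebraMap B Ob z = 0 → z ∈ (maximalIdeal A).map (algebraMap A B))
    (hresK : ResidueTrivial K O) (hresk : ResidueTrivial (ResidueField A) Ob)
    (htr : ∀ p : A[X], p.map (residue A) ≠ 0 → algebraMap B Ob (aeval x p) ≠ 0)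
    (b : B) (hb : algebraMap B Ob b ≠ 0)
    (htf : ∀ (a : A) (z : B), a ≠ 0 → algebraMap A B a * z ∈ Ideal.span {b} → z ∈ Ideal.span {b})
    (hG : ∃ g : A[X], aeval x g ∈ Ideal.span {b} ∧ g.map (residue A) ≠ 0)
    (𝔮 : Ideal Ob) (h𝔮 : 𝔮.IsMaximal) :
    Multiset.count 𝔮 (normalizedFactors (Ideal.span {algebraMap B Ob b})) =
      Multiset.card ((normalizedFactors (Ideal.span {algebraMap B O b})).filter
        (fun 𝔭 => ∀ z : B, algebraMap B O z ∈ 𝔭 → algebraMap B Ob z ∈ 𝔮)) := by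
  -- Step 0: the value `c` of `x` at `𝔮`
  obtain ⟨cb, hcb⟩ := hresk 𝔮 h𝔮 (Ideal.Quotient.mk 𝔮 (algebraMap B Ob x))
  obtain ⟨c, rfl⟩ := residue_surjective cb
  have hxc : algebraMap B Ob (x - algebraMap A B c) ∈ 𝔮 := by
    rw [← Ideal.Quotient.eq_zero_iff_mem, map_sub, map_sub, ← hcb, sub_eq_zero,
      ← IsScalarTower.algebraMap_apply A B Ob,
      IsScalarTower.algebraMap_apply A (ResidueField A) Ob]
    rfl
  -- Step 1: factorisation of `g`
  obtain ⟨g, hgb, hgbar⟩ := hG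
  obtain ⟨g₁, g₂, hg12, hg₁m, hg₁bar, hg₂c, hcop⟩ := exists_factorization K g hgbar c
  obtain ⟨s, t, hst⟩ := hcop
  set G₁ := aeval x g₁ with hG₁
  set G₂ := aeval x g₂ with hG₂
  have hST : aeval x s * G₁ + aeval x t * G₂ = 1 := by
    rw [hG₁, hG₂, ← map_mul, ← map_mul, ← map_add, hst, map_one]
  have hGG : G₁ * G₂ ∈ Ideal.span {b} := by
    rw [hG₁, hG₂, ← map_mul, ← hg12]; exact hgb
  set J : Ideal B := Ideal.span {b, G₁} with hJ
  obtain ⟨hCfin, hCfree⟩ := free_quotient x hfin g₁ hg₁m b G₂ _ _ hST hGG htf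
  have htfJ : ∀ (a : A) (z : B), a ≠ 0 → algebraMap A B a * z ∈ J → z ∈ J :=
    fun a z ha hz => mem_span_pair_of_smul_mem b G₁ G₂ _ _ hST hGG htf a ha z hz
  -- nonvanishing
  have hρG₁ : algebraMap B Ob G₁ ≠ 0 := by
    apply htr
    rw [hg₁bar]
    exact pow_ne_zero _ (X_sub_C_ne_zero _)
  have hρG₂𝔮 : algebraMap B Ob G₂ ∉ 𝔮 := aeval_notMem x c g₂ hg₂c 𝔮 h𝔮.ne_top hxc
  have hρG₂ : algebraMap B Ob G₂ ≠ 0 := fun h => hρG₂𝔮 (h ▸ 𝔮.zero_mem)
  have hβ0 : ∀ z : B, algebraMap B Ob z ≠ 0 → algebraMap B O z ≠ 0 := by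
    intro z hz h
    apply hz
    have : z = 0 := hinj (by rw [h, map_zero])
    rw [this, map_zero]
  have hβb := hβ0 b hb
  have hβG₁ := hβ0 G₁ hρG₁
  have hβG₂ := hβ0 G₂ hρG₂
  -- the ideals in the fibres
  have hJO : J.map (algebraMap B O) = Ideal.span {algebraMap B O b, algebraMap B O G₁} := by
    rw [hJ, Ideal.map_span, Set.image_pair]
  have hJb : J.map (algebraMap B Ob) = Ideal.span {algebraMap B Ob b, algebraMap B Ob G₁} := by
    rw [hJ, Ideal.map_span, Set.image_pair]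
  have hJO0 : J.map (algebraMap B O) ≠ ⊥ := by
    intro h
    apply hβb
    have : algebraMap B O b ∈ J.map (algebraMap B O) :=
      Ideal.mem_map_of_mem _ (Ideal.subset_span (by simp))
    rwa [h, Ideal.mem_bot] at this
  have hJb0 : J.map (algebraMap B Ob) ≠ ⊥ := by
    intro h
    apply hb
    have : algebraMap B Ob b ∈ J.map (algebraMap B Ob) :=
      Ideal.mem_map_of_mem _ (Ideal.subset_span (by simp))
    rwa [h, Ideal.mem_bot] at this
  haveI := finite_quotient hresK _ hJO0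
  haveI := finite_quotient hresk _ hJb0
  have hGGO : algebraMap B O G₁ * algebraMap B O G₂ ∈ Ideal.span {algebraMap B O b} := by
    have := Ideal.mem_map_of_mem (algebraMap B O) hGG
    rwa [Ideal.map_span, Set.image_singleton, map_mul] at this
  have hGGb : algebraMap B Ob G₁ * algebraMap B Ob G₂ ∈ Ideal.span {algebraMap B Ob b} := by
    have := Ideal.mem_map_of_mem (algebraMap B Ob) hGG
    rwa [Ideal.map_span, Set.image_singleton, map_mul] at this
  -- Step 4: choice of `u`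
  obtain ⟨ub, hub𝔮, hubne⟩ : ∃ ub ∈ 𝔮, ∀ 𝔮' ∈ normalizedFactors (J.map (algebraMap B Ob)),
      𝔮' ≠ 𝔮 → ub ∉ 𝔮' := by
    set S := (normalizedFactors (J.map (algebraMap B Ob))).toFinset.erase 𝔮 with hS
    have hnot : ¬ ((𝔮 : Set Ob) ⊆ ⋃ i ∈ (S : Set (Ideal Ob)), ((id i : Ideal Ob) : Set Ob)) := by
      rw [Ideal.subset_union_prime (f := id) ⊥ ⊥]
      · rintro ⟨i, hi, hle⟩
        rw [hS, Finset.mem_erase, Multiset.mem_toFinset] at hi
        have hmax := isMaximal_of_mem_normalizedFactors hi.2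
        exact hi.1 (h𝔮.eq_of_le hmax.ne_top hle).symm
      · intro i hi _ _
        rw [hS, Finset.mem_erase, Multiset.mem_toFinset] at hi
        exact (isMaximal_of_mem_normalizedFactors hi.2).isPrime
    obtain ⟨ub, hub, hub'⟩ := Set.not_subset.mp hnot
    refine ⟨ub, hub, ?_⟩
    intro 𝔮' h𝔮' hne hmem
    apply hub'
    rw [Set.mem_iUnion₂]
    exact ⟨𝔮', by rw [Finset.mem_coe, hS, Finset.mem_erase, Multiset.mem_toFinset]; exact ⟨hne, h𝔮'⟩,
      hmem⟩
  obtain ⟨u, rfl⟩ := hsurj ub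
  -- Step 3/5: roots of the characteristic polynomial on both fibres
  set χ := (LinearMap.mulLeft A (Ideal.Quotient.mk J u)).charpoly with hχ
  obtain ⟨R, hR⟩ := exists_multiset_roots K χ (LinearMap.charpoly_monic _)
  have hvalK : ∀ 𝔭 ∈ normalizedFactors (J.map (algebraMap B O)),
      algebraMap B O u - algebraMap K O (valAt hresK (algebraMap B O u) 𝔭) ∈ 𝔭 := by
    intro 𝔭 h𝔭
    haveI := isMaximal_of_mem_normalizedFactors h𝔭
    rw [valAt_eq]
    exact sub_evalAt_mem _ _ _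
  have hvalk : ∀ 𝔮' ∈ normalizedFactors (J.map (algebraMap B Ob)),
      algebraMap B Ob u - algebraMap (ResidueField A) Ob (valAt hresk (algebraMap B Ob u) 𝔮') ∈
        𝔮' := by
    intro 𝔮' h𝔮'
    haveI := isMaximal_of_mem_normalizedFactors h𝔮'
    rw [valAt_eq]
    exact sub_evalAt_mem _ _ _
  have hK : (normalizedFactors (J.map (algebraMap B O))).map (valAt hresK (algebraMap B O u)) =
      R.map (algebraMap A K) := by
    rw [← roots_charpoly_mulLeft hresK _ hJO0 _ _ hvalK, fibreK_charpoly K hinj hfrac J htfJ u,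
      ← hχ, hR, roots_map_prod_X_sub_C]
  have hk : (normalizedFactors (J.map (algebraMap B Ob))).map (valAt hresk (algebraMap B Ob u)) =
      R.map (algebraMap A (ResidueField A)) := by
    rw [← roots_charpoly_mulLeft hresk _ hJb0 _ _ hvalk, fibrek_charpoly hsurj hker J u,
      ← hχ, hR, roots_map_prod_X_sub_C]
  -- counting
  have hinjA := IsFractionRing.injective A K
  have hc1 := card_filter_eq_of_map_eq _ R _ _ hk (fun y => y = 0)
  have hc2 := card_filter_eq_of_map_eq _ R _ _ hK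
    (fun y => ∃ m ∈ maximalIdeal A, algebraMap A K m = y)
  have hc3 : R.filter ((fun y => y = 0) ∘ algebraMap A (ResidueField A)) =
      R.filter ((fun y => ∃ m ∈ maximalIdeal A, algebraMap A K m = y) ∘ algebraMap A K) := by
    apply Multiset.filter_congr
    intro a _
    simp only [Function.comp_apply]
    constructor
    · intro h
      exact ⟨a, (residue_eq_zero_iff a).mp h, rfl⟩
    · rintro ⟨m, hm, e⟩
      rw [← hinjA e]
      exact (residue_eq_zero_iff m).mpr hm
  rw [hc3, ← hc2] at hc1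
  -- identification of the left side
  have hL : (normalizedFactors (J.map (algebraMap B Ob))).filter
      ((fun y => y = 0) ∘ valAt hresk (algebraMap B Ob u)) =
      (normalizedFactors (J.map (algebraMap B Ob))).filter (fun 𝔮' => 𝔮 = 𝔮') := by
    apply Multiset.filter_congr
    intro 𝔮' h𝔮'
    haveI := isMaximal_of_mem_normalizedFactors h𝔮'
    simp only [Function.comp_apply]
    rw [valAt_eq, evalAt_eq_zero_iff]
    constructor
    · intro h
      by_contra hne
      exact hubne 𝔮' h𝔮' (fun e => hne e.symm) h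
    · rintro rfl
      exact hub𝔮
  -- identification of the right side
  have hRt : (normalizedFactors (J.map (algebraMap B O))).filter
      ((fun y => ∃ m ∈ maximalIdeal A, algebraMap A K m = y) ∘
        valAt hresK (algebraMap B O u)) =
      (normalizedFactors (J.map (algebraMap B O))).filter
        (fun 𝔭 => ∀ z : B, algebraMap B O z ∈ 𝔭 → algebraMap B Ob z ∈ 𝔮) := by
    apply Multiset.filter_congr
    intro 𝔭 h𝔭
    simp only [Function.comp_apply]
    exact redTo_iff K x hfin hsurj hker hresK g₁ hg₁m J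
      (Ideal.subset_span (Set.mem_insert_of_mem _ rfl)) hJb0 𝔮 h𝔮 u
      hub𝔮 hubne 𝔭 (isMaximal_of_mem_normalizedFactors h𝔭) (le_of_mem_normalizedFactors h𝔭)
  have hRt2 : (normalizedFactors (J.map (algebraMap B O))).filter
        (fun 𝔭 => ∀ z : B, algebraMap B O z ∈ 𝔭 → algebraMap B Ob z ∈ 𝔮) =
      (normalizedFactors (Ideal.span {algebraMap B O b})).filter
        (fun 𝔭 => ∀ z : B, algebraMap B O z ∈ 𝔭 → algebraMap B Ob z ∈ 𝔮) := by
    rw [Multiset.ext]
    intro 𝔭
    rw [Multiset.count_filter, Multiset.count_filter]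
    split_ifs with hred
    · rw [hJO]
      apply count_span_pair _ _ _ hβb hβG₁ hβG₂ hGGO
      intro h
      exact hρG₂𝔮 (hred _ h)
    · rfl
  rw [hL, hRt, hRt2, ← Multiset.count_eq_card_filter_eq, hJb,
    count_span_pair _ _ _ hb hρG₁ hρG₂ hGGb 𝔮 hρG₂𝔮] at hc1
  exact hc1

end Main

end Fermat.Agent.S37.H577
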