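import Fermat.Agent.S37.H577.Gauss

/-!
# S37 / RIM-core (helper577): the finite free `A`-algebra `C₁ = B ⧸ (b, g₁(x))`

`A` a valuation ring, `B` an `A`-algebra which is a finite module over `A[x]` (`FiniteOver`).
* `finite_quotient_of_monic` : `B ⧸ J` is a finite `A`-module as soon as `J` contains `g₁(x)` for a
  monic `g₁ ∈ A[X]`;
* `mem_span_pair_of_smul_mem` : torsion-freeness of `B ⧸ (b, G₁)` from torsion-freeness of `B ⧸ (b)`
  and a comaximal factorisation `G₁ G₂ ∈ (b)`;
* `free_quotient` : `B ⧸ (b, G₁)` is a finite free `A`-module.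
-/

namespace Fermat.Agent.S37.H577

open Polynomial IsLocalRing Module

/-- `B` is a finite module over `A[x]`. -/
def FiniteOver (A : Type*) {B : Type*} [CommRing A] [CommRing B] [Algebra A B] (x : B) : Prop :=
  ∃ s : Finset B, ∀ z : B, ∃ p : B → A[X], z = ∑ w ∈ s, aeval x (p w) * w

section Finite

variable {A : Type*} [CommRing A] [Nontrivial A] {B : Type*} [CommRing B] [Algebra A B]

theorem finite_quotient_of_monic (x : B) (hfin : FiniteOver A x) (g₁ : A[X]) (hg₁ : g₁.Monic)
    (J : Ideal B) (hJ : aeval x g₁ ∈ J) : Module.Finite A (B ⧸ J) := by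
  classical
  obtain ⟨s, hs⟩ := hfin
  set d := g₁.natDegree with hd
  let T : Finset (B ⧸ J) :=
    (s ×ˢ Finset.range d).image (fun wj => Ideal.Quotient.mk J (x ^ wj.2 * wj.1))
  refine ⟨⟨T, ?_⟩⟩
  rw [eq_top_iff]
  rintro y -
  obtain ⟨z, rfl⟩ := Ideal.Quotient.mk_surjective y
  obtain ⟨p, hp⟩ := hs z
  rw [hp, map_sum]
  apply Submodule.sum_mem
  intro w hw
  set r := p w %ₘ g₁ with hr
  have h1 : Ideal.Quotient.mk J (aeval x (p w) * w) = Ideal.Quotient.mk J (aeval x r * w) := by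
    rw [Ideal.Quotient.mk_eq_mk_iff_sub_mem, ← sub_mul, ← map_sub]
    have : p w - r = g₁ * (p w /ₘ g₁) := by
      rw [hr, sub_eq_iff_eq_add, add_comm]
      exact (modByMonic_add_div (p w) g₁).symm
    rw [this, map_mul, mul_assoc]
    exact Ideal.mul_mem_right _ _ hJ
  rw [h1]
  by_cases hr0 : r = 0
  · rw [hr0, map_zero, zero_mul, map_zero]; exact Submodule.zero_mem _
  · have hdeg : r.natDegree < d := by
      apply natDegree_lt_natDegree hr0
      exact degree_modByMonic_lt (p w) hg₁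
    rw [aeval_eq_sum_range' hdeg, Finset.sum_mul, map_sum]
    apply Submodule.sum_mem
    intro j hj
    have h2 : Ideal.Quotient.mk J (r.coeff j • x ^ j * w) =
        r.coeff j • Ideal.Quotient.mk J (x ^ j * w) := by
      rw [smul_mul_assoc]; rfl
    rw [h2]
    apply Submodule.smul_mem
    apply Submodule.subset_span
    rw [Finset.mem_coe, Finset.mem_image]
    exact ⟨(w, j), Finset.mem_product.mpr ⟨hw, hj⟩, rfl⟩

end Finite

section Free

variable {A : Type*} [CommRing A] [IsDomain A] [ValuationRing A]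
variable {B : Type*} [CommRing B] [Algebra A B]

theorem mem_span_pair_of_smul_mem (b G₁ G₂ S T : B) (hST : S * G₁ + T * G₂ = 1)
    (hG : G₁ * G₂ ∈ Ideal.span {b})
    (htf : ∀ (a : A) (z : B), a ≠ 0 → algebraMap A B a * z ∈ Ideal.span {b} → z ∈ Ideal.span {b})
    (a : A) (ha : a ≠ 0) (z : B) (hz : algebraMap A B a * z ∈ Ideal.span {b, G₁}) :
    z ∈ Ideal.span {b, G₁} := by
  obtain ⟨y, w, hyw⟩ := Ideal.mem_span_pair.mp hz
  have h1 : algebraMap A B a * (G₂ * z) ∈ Ideal.span {b} := by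
    have : algebraMap A B a * (G₂ * z) = G₂ * y * b + w * (G₁ * G₂) := by
      calc algebraMap A B a * (G₂ * z) = G₂ * (algebraMap A B a * z) := by ring
        _ = G₂ * (y * b + w * G₁) := by rw [hyw]
        _ = G₂ * y * b + w * (G₁ * G₂) := by ring
    rw [this]
    exact Ideal.add_mem _ (Ideal.mul_mem_left _ _ (Ideal.mem_span_singleton_self b))
      (Ideal.mul_mem_left _ _ hG)
  have h2 : G₂ * z ∈ Ideal.span {b} := htf a (G₂ * z) ha h1
  obtain ⟨e, he⟩ := Ideal.mem_span_singleton'.mp h2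
  rw [Ideal.mem_span_pair]
  refine ⟨T * e, S * z, ?_⟩
  calc T * e * b + S * z * G₁ = T * (e * b) + S * G₁ * z := by ring
    _ = T * (G₂ * z) + S * G₁ * z := by rw [he]
    _ = (S * G₁ + T * G₂) * z := by ring
    _ = z := by rw [hST, one_mul]

theorem free_quotient (x : B) (hfin : FiniteOver A x) (g₁ : A[X]) (hg₁ : g₁.Monic)
    (b G₂ S T : B) (hST : S * aeval x g₁ + T * G₂ = 1)
    (hG : aeval x g₁ * G₂ ∈ Ideal.span {b})
    (htf : ∀ (a : A) (z : B), a ≠ 0 → algebraMap A B a * z ∈ Ideal.span {b} → z ∈ Ideal.span {b}) :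
    Module.Finite A (B ⧸ Ideal.span {b, aeval x g₁}) ∧
      Module.Free A (B ⧸ Ideal.span {b, aeval x g₁}) := by
  have hfin' : Module.Finite A (B ⧸ Ideal.span {b, aeval x g₁}) :=
    finite_quotient_of_monic x hfin g₁ hg₁ _ (Ideal.subset_span (by simp))
  refine ⟨hfin', ?_⟩
  have htors : Submodule.torsion A (B ⧸ Ideal.span {b, aeval x g₁}) = ⊥ := by
    rw [eq_bot_iff]
    intro y hy
    rw [Submodule.mem_torsion_iff] at hy
    obtain ⟨a, ha⟩ := hy
    obtain ⟨z, rfl⟩ := Ideal.Quotient.mk_surjective y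
    rw [Submodule.mem_bot, Ideal.Quotient.eq_zero_iff_mem]
    apply mem_span_pair_of_smul_mem b (aeval x g₁) G₂ S T hST hG htf (a : A)
      (nonZeroDivisors.coe_ne_zero a) z
    rw [← Ideal.Quotient.eq_zero_iff_mem, map_mul]
    have : (a : A) • (Ideal.Quotient.mk (Ideal.span {b, aeval x g₁}) z) = 0 := ha
    rw [Algebra.smul_def] at this
    exact this
  have : Module.Flat A (B ⧸ Ideal.span {b, aeval x g₁}) :=
    Module.Flat.flat_iff_torsion_eq_bot_of_isBezout.mpr htors
  exact Module.free_of_flat_of_isLocalRing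

end Free

end Fermat.Agent.S37.H577
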