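import Fermat.Agent.S37.H577.DedekindCount
import Fermat.Agent.S37.H577.Quot

/-!
# S37 / RIM-core (helper577): evaluation at maximal ideals, counting lemmas, integrality of values
-/

namespace Fermat.Agent.S37.H577

open Polynomial UniqueFactorizationMonoid Module

section Eval

variable {κ D : Type*} [Field κ] [CommRing D] [Algebra κ D]

/-- evaluation at a maximal ideal with residue field `κ` -/
noncomputable def evalAt (𝔭 : Ideal D) [h𝔭 : 𝔭.IsMaximal]
    (h : Function.Surjective (algebraMap κ (D ⧸ 𝔭))) : D →ₐ[κ] κ :=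
  letI : Field (D ⧸ 𝔭) := Ideal.Quotient.field 𝔭
  ((AlgEquiv.ofBijective (Algebra.ofId κ (D ⧸ 𝔭))
    ⟨(algebraMap κ (D ⧸ 𝔭)).injective, h⟩).symm : (D ⧸ 𝔭) →ₐ[κ] κ).comp
    (Ideal.Quotient.mkₐ κ 𝔭)

theorem algebraMap_evalAt (𝔭 : Ideal D) [h𝔭 : 𝔭.IsMaximal]
    (h : Function.Surjective (algebraMap κ (D ⧸ 𝔭))) (d : D) :
    algebraMap κ (D ⧸ 𝔭) (evalAt 𝔭 h d) = Ideal.Quotient.mk 𝔭 d := by
  letI : Field (D ⧸ 𝔭) := Ideal.Quotient.field 𝔭
  unfold evalAt
  exact (AlgEquiv.ofBijective (Algebra.ofId κ (D ⧸ 𝔭))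
    ⟨(algebraMap κ (D ⧸ 𝔭)).injective, h⟩).apply_symm_apply _

theorem sub_evalAt_mem (𝔭 : Ideal D) [h𝔭 : 𝔭.IsMaximal]
    (h : Function.Surjective (algebraMap κ (D ⧸ 𝔭))) (d : D) :
    d - algebraMap κ D (evalAt 𝔭 h d) ∈ 𝔭 := by
  rw [← Ideal.Quotient.eq_zero_iff_mem, map_sub, sub_eq_zero, ← algebraMap_evalAt 𝔭 h d]
  rfl

theorem evalAt_eq_zero_iff (𝔭 : Ideal D) [h𝔭 : 𝔭.IsMaximal]
    (h : Function.Surjective (algebraMap κ (D ⧸ 𝔭))) (d : D) :
    evalAt 𝔭 h d = 0 ↔ d ∈ 𝔭 := by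
  letI : Field (D ⧸ 𝔭) := Ideal.Quotient.field 𝔭
  rw [← Ideal.Quotient.eq_zero_iff_mem, ← algebraMap_evalAt 𝔭 h d,
    map_eq_zero_iff _ (algebraMap κ (D ⧸ 𝔭)).injective]

open scoped Classical in
/-- value of `u` at `𝔭` (junk `0` if `𝔭` is not maximal) -/
noncomputable def valAt (hres : ResidueTrivial κ D) (u : D) (𝔭 : Ideal D) : κ :=
  if h : 𝔭.IsMaximal then @evalAt κ D _ _ _ 𝔭 h (hres 𝔭 h) u else 0

theorem valAt_eq (hres : ResidueTrivial κ D) (u : D) (𝔭 : Ideal D) [h : 𝔭.IsMaximal] :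
    valAt hres u 𝔭 = evalAt 𝔭 (hres 𝔭 h) u := by
  unfold valAt
  rw [dif_pos h]

end Eval

section Count

variable {D : Type*} [CommRing D] [IsDedekindDomain D]

theorem isMaximal_of_mem_normalizedFactors {I 𝔭 : Ideal D} (h : 𝔭 ∈ normalizedFactors I) :
    𝔭.IsMaximal := by
  have hprime : Prime 𝔭 := prime_of_normalized_factor 𝔭 h
  exact ((Ideal.prime_iff_isPrime hprime.ne_zero).mp hprime).isMaximal hprime.ne_zero

theorem le_of_mem_normalizedFactors {I 𝔭 : Ideal D} (h : 𝔭 ∈ normalizedFactors I) : I ≤ 𝔭 :=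
  Ideal.dvd_iff_le.mp (dvd_of_mem_normalizedFactors h)

open scoped Classical in
/-- if `e₁ e₂ ∈ (e)` and `e₂ ∉ 𝔭`, then `𝔭` has the same multiplicity in `(e, e₁)` and in `(e)` -/
theorem count_span_pair (e e₁ e₂ : D) (he : e ≠ 0) (he₁ : e₁ ≠ 0) (he₂ : e₂ ≠ 0)
    (h12 : e₁ * e₂ ∈ Ideal.span {e}) (𝔭 : Ideal D) (h𝔭 : e₂ ∉ 𝔭) :
    Multiset.count 𝔭 (normalizedFactors (Ideal.span {e, e₁})) =
      Multiset.count 𝔭 (normalizedFactors (Ideal.span {e})) := by
  have h0 : Ideal.span {e} ≠ ⊥ := by rwa [Ne, Ideal.span_singleton_eq_bot]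
  have h1 : Ideal.span {e₁} ≠ ⊥ := by rwa [Ne, Ideal.span_singleton_eq_bot]
  have h2 : Ideal.span {e₂} ≠ ⊥ := by rwa [Ne, Ideal.span_singleton_eq_bot]
  rw [Ideal.span_insert, Ideal.sup_eq_prod_inf_factors h0 h1, normalizedFactors_prod_of_prime,
    Multiset.count_inter]
  · apply min_eq_left
    have h3 : Ideal.span {e₁} * Ideal.span {e₂} ≤ Ideal.span {e} := by
      rw [Ideal.span_singleton_mul_span_singleton, Ideal.span_singleton_le_iff_mem]
      exact h12
    have h4 : normalizedFactors (Ideal.span {e}) ≤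
        normalizedFactors (Ideal.span {e₁} * Ideal.span {e₂}) :=
      (dvd_iff_normalizedFactors_le_normalizedFactors h0 (mul_ne_zero h1 h2)).mp
        (Ideal.dvd_iff_le.mpr h3)
    have h5 := Multiset.count_le_of_le 𝔭 h4
    rw [normalizedFactors_mul h1 h2, Multiset.count_add] at h5
    have h6 : Multiset.count 𝔭 (normalizedFactors (Ideal.span {e₂})) = 0 := by
      apply Multiset.count_eq_zero_of_notMem
      intro hmem
      exact h𝔭 ((Ideal.span_singleton_le_iff_mem _).mp (le_of_mem_normalizedFactors hmem))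
    omega
  · intro p hp
    exact prime_of_normalized_factor p (Multiset.mem_of_le Multiset.inter_le_left hp)

end Count

section Integral

variable {A : Type*} [CommRing A] [IsDomain A] [IsIntegrallyClosed A]
variable {K : Type*} [Field K] [Algebra A K] [IsFractionRing A K]
variable {B : Type*} [CommRing B] [Algebra A B]

/-- the values of a point `P : B → K` killing a monic polynomial in `x` lie in `A` -/
theorem exists_algebraMap_eq_of_point (x : B) (hfin : FiniteOver A x) (g₁ : A[X]) (hg₁ : g₁.Monic)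
    (P : B →ₐ[A] K) (hP : P (aeval x g₁) = 0) (z : B) : ∃ a : A, algebraMap A K a = P z := by
  classical
  have hx : ∃ a₀ : A, algebraMap A K a₀ = P x := by
    apply IsIntegrallyClosed.algebraMap_eq_of_integral
    refine ⟨g₁, hg₁, ?_⟩
    rw [← aeval_def, aeval_algHom_apply, hP]
  obtain ⟨a₀, ha₀⟩ := hx
  letI alg : Algebra A[X] B := (aeval x : A[X] →ₐ[A] B).toRingHom.toAlgebra
  have halg : ∀ p : A[X], algebraMap A[X] B p = aeval x p := fun p => rfl
  haveI : Module.Finite A[X] B := by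
    obtain ⟨s, hs⟩ := hfin
    refine ⟨⟨s, ?_⟩⟩
    rw [eq_top_iff]
    rintro y -
    obtain ⟨p, hp⟩ := hs y
    rw [hp]
    apply Submodule.sum_mem
    intro w hw
    have : aeval x (p w) * w = (p w) • w := by rw [Algebra.smul_def, halg]
    rw [this]
    exact Submodule.smul_mem _ _ (Submodule.subset_span hw)
  obtain ⟨p, hp, hpz⟩ := IsIntegral.of_finite A[X] z
  have hf : (P : B →+* K).comp (algebraMap A[X] B) =
      (algebraMap A K).comp (evalRingHom a₀) := by
    apply Polynomial.ringHom_ext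
    · intro a
      simp [halg]
    · simp [halg, ha₀]
  apply IsIntegrallyClosed.algebraMap_eq_of_integral
  refine ⟨p.map (evalRingHom a₀), hp.map _, ?_⟩
  rw [eval₂_map, ← hf]
  have := congrArg P hpz
  rw [map_zero] at this
  rw [← this]
  exact (hom_eval₂ p (algebraMap A[X] B) (P : B →+* K) z).symm

end Integral

end Fermat.Agent.S37.H577
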